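import Mathlib
import Fermat.Prelude.Def_EllipticCurve_FrobeniusTrace

set_option autoImplicit false
set_option linter.style.haveILetI false
set_option linter.unusedVariables false

open scoped Pointwise
noncomputable section

namespace Fermat.Agent.S54

section General

variable {L : Type*} [Field L]

theorem isIntegral_int_of_forall_mem_valuationSubring (y : L)
    (h : ∀ V : ValuationSubring L, y ∈ V) : IsIntegral ℤ y := by
  have h1 : y ∈ (⨅ V : {V : ValuationSubring L // (∅ : Set L) ⊆ V.toSubring}, V.1.toSubring) := by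
    rw [Subring.mem_iInf]
    intro V
    exact h V.1
  rw [iInf_valuationSubring_superset] at h1
  have h2 : IsIntegral (Subring.closure (∅ : Set L)) y := h1
  have h3 : Algebra.IsIntegral ℤ (Subring.closure (∅ : Set L)) := by
    apply Algebra.isIntegral_of_surjective
    intro ⟨z, hz⟩
    rw [Subring.closure_empty] at hz
    obtain ⟨n, rfl⟩ := Subring.mem_bot.mp hz
    exact ⟨n, Subtype.ext (by simp)⟩
  exact isIntegral_trans (R := ℤ) (A := Subring.closure (∅ : Set L)) y h2

/-- combinatorial core: a relation `∑ a_i x^i = 0` split at index `k`. -/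
theorem split_relation (a : ℕ → L) (x : L) (hx : x ≠ 0) (k m : ℕ)
    (h : ∑ i ∈ Finset.range (k + m), a i * x ^ i = 0) :
    ∑ j ∈ Finset.range m, a (k + j) * x ^ j = - ∑ i ∈ Finset.range k, a i * (x⁻¹) ^ (k - i) := by
  rw [Finset.sum_range_add] at h
  have hxk : x ^ k ≠ 0 := pow_ne_zero k hx
  have h1 : x ^ k * (∑ j ∈ Finset.range m, a (k + j) * x ^ j +
      ∑ i ∈ Finset.range k, a i * (x⁻¹) ^ (k - i)) = 0 := by
    rw [mul_add, Finset.mul_sum, Finset.mul_sum, add_comm]
    rw [← h]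
    congr 1
    · apply Finset.sum_congr rfl
      intro i hi
      have hik : i ≤ k := (Finset.mem_range.mp hi).le
      have : x ^ k = x ^ i * x ^ (k - i) := by rw [← pow_add, Nat.add_sub_cancel' hik]
      rw [this, inv_pow]
      field_simp
    · apply Finset.sum_congr rfl
      intro j _
      rw [pow_add]; ring
  have h2 := (mul_eq_zero.mp h1).resolve_left hxk
  exact eq_neg_of_add_eq_zero_left h2

theorem sum_mem_valuationSubring (V : ValuationSubring L) (a : ℕ → ℤ) (t : L) (ht : t ∈ V)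
    (e : ℕ → ℕ) (n : ℕ) : ∑ i ∈ Finset.range n, (a i : L) * t ^ (e i) ∈ V :=
  V.toSubring.sum_mem fun i _ => V.mul_mem _ _ (intCast_mem V.toSubring _) (V.pow_mem ht _)

theorem one_not_mem_nonunits (A : ValuationSubring L) : (1 : L) ∉ A.nonunits := by
  intro h1
  rw [A.mem_nonunits_iff, map_one] at h1
  exact lt_irrefl _ h1

/-- Key lemma: an element of a valuation subring over `ℓ` is a quotient of two integral
elements with denominator a unit of the valuation subring. -/
theorem exists_integral_mul_eq [CharZero L] (A : ValuationSubring L) (ℓ : ℕ) (hℓ : ℓ.Prime)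
    (hA : (ℓ : L) ∈ A.nonunits) (x : L) (hx : x ∈ A) (hxalg : IsAlgebraic ℤ x) :
    ∃ y b : L, IsIntegral ℤ y ∧ IsIntegral ℤ b ∧ y ∈ A ∧ y ∉ A.nonunits ∧ x * y = b := by
  by_cases hx0 : x = 0
  · exact ⟨1, 0, isIntegral_one, isIntegral_zero, A.one_mem, one_not_mem_nonunits A, by simp [hx0]⟩
  obtain ⟨p, hp0, hpx⟩ := hxalg
  have hfx : Polynomial.aeval x p.primPart = 0 := Polynomial.aeval_primPart_eq_zero hp0 hpx
  have hprim : p.primPart.IsPrimitive := p.isPrimitive_primPart
  set f := p.primPart with hf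
  set n := f.natDegree with hn
  -- some coefficient is prime to ℓ
  have hex : ∃ i, i ≤ n ∧ ¬ ((ℓ : ℤ) ∣ f.coeff i) := by
    by_contra hcon
    push Not at hcon
    have hdvd : Polynomial.C (ℓ : ℤ) ∣ f := by
      rw [Polynomial.C_dvd_iff_dvd_coeff]
      intro i
      by_cases hi : i ≤ n
      · exact hcon i hi
      · rw [Polynomial.coeff_eq_zero_of_natDegree_lt (not_le.mp hi)]
        exact dvd_zero _
    have hu := hprim _ hdvd
    rw [Int.isUnit_iff] at hu
    have := hℓ.one_lt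
    omega
  classical
  obtain ⟨i0, hi0n, hi0⟩ := hex
  set k := Nat.findGreatest (fun i => ¬ ((ℓ : ℤ) ∣ f.coeff i)) n with hk
  have hkP : ¬ ((ℓ : ℤ) ∣ f.coeff k) := Nat.findGreatest_spec (P := fun i => ¬ ((ℓ : ℤ) ∣ f.coeff i)) hi0n hi0
  have hkn : k ≤ n := Nat.findGreatest_le n
  have hkmax : ∀ i, k < i → (ℓ : ℤ) ∣ f.coeff i := by
    intro i hki
    by_cases hi : i ≤ n
    · have := Nat.findGreatest_is_greatest (P := fun i => ¬ ((ℓ : ℤ) ∣ f.coeff i)) hki hi
      simpa using this
    · rw [Polynomial.coeff_eq_zero_of_natDegree_lt (not_le.mp hi)]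
      exact dvd_zero _
  -- the relation
  obtain ⟨m', hm'⟩ : ∃ m', n + 1 = k + (m' + 1) := ⟨n - k, by omega⟩
  have hrel : ∑ i ∈ Finset.range (k + (m' + 1)), (f.coeff i : L) * x ^ i = 0 := by
    rw [← hm', ← hfx, Polynomial.aeval_eq_sum_range]
    apply Finset.sum_congr rfl
    intro i _
    rw [zsmul_eq_mul]
  have hsplit := split_relation (fun i => (f.coeff i : L)) x hx0 k (m' + 1) hrel
  set y := ∑ j ∈ Finset.range (m' + 1), (f.coeff (k + j) : L) * x ^ j with hy
  -- y in every valuation subring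
  have hyV : ∀ V : ValuationSubring L, y ∈ V := by
    intro V
    rcases V.mem_or_inv_mem x with h | h
    · exact sum_mem_valuationSubring V (fun j => f.coeff (k + j)) x h (fun j => j) _
    · rw [hsplit]
      exact V.neg_mem _ (sum_mem_valuationSubring V (fun i => f.coeff i) x⁻¹ h (fun i => k - i) _)
  have hbV : ∀ V : ValuationSubring L, x * y ∈ V := by
    intro V
    rcases V.mem_or_inv_mem x with h | h
    · exact V.mul_mem _ _ h (hyV V)
    · rw [hsplit, mul_neg, Finset.mul_sum]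
      apply V.neg_mem
      have : ∀ i ∈ Finset.range k, x * ((f.coeff i : L) * x⁻¹ ^ (k - i)) =
          (f.coeff i : L) * x⁻¹ ^ (k - i - 1) := by
        intro i hi
        have hik : i < k := Finset.mem_range.mp hi
        obtain ⟨d, hd⟩ : ∃ d, k - i = d + 1 := ⟨k - i - 1, by omega⟩
        rw [hd, Nat.add_sub_cancel, pow_succ]
        field_simp
      rw [Finset.sum_congr rfl this]
      exact sum_mem_valuationSubring V (fun i => f.coeff i) x⁻¹ h (fun i => k - i - 1) _
  refine ⟨y, x * y, isIntegral_int_of_forall_mem_valuationSubring y hyV,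
    isIntegral_int_of_forall_mem_valuationSubring _ hbV, hyV A, ?_, rfl⟩
  -- y is a unit of A
  intro hyn
  set xA : A := ⟨x, hx⟩ with hxA
  set yA : A := ∑ j ∈ Finset.range (m' + 1), (f.coeff (k + j) : A) * xA ^ j with hyA
  have hyAy : (yA : L) = y := by
    rw [hyA, hy]
    push_cast
    rfl
  have hℓm : (ℓ : A) ∈ IsLocalRing.maximalIdeal A := by
    rw [← ValuationSubring.coe_mem_nonunits_iff]
    simpa using hA
  have hyAm : yA ∈ IsLocalRing.maximalIdeal A := by
    rw [← ValuationSubring.coe_mem_nonunits_iff, hyAy]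
    exact hyn
  rw [hyA, Finset.sum_range_succ'] at hyAm
  have htail : ∑ j ∈ Finset.range m', (f.coeff (k + (j + 1)) : A) * xA ^ (j + 1) ∈
      IsLocalRing.maximalIdeal A := by
    apply Ideal.sum_mem
    intro j _
    apply Ideal.mul_mem_right
    obtain ⟨c, hc⟩ := hkmax (k + (j + 1)) (by omega)
    rw [hc]
    push_cast
    exact Ideal.mul_mem_right _ _ hℓm
  have hak : (f.coeff k : A) ∈ IsLocalRing.maximalIdeal A := by
    have := (Ideal.add_mem_iff_right _ htail).mp hyAm
    simpa using this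
  have hcop : IsCoprime (ℓ : ℤ) (f.coeff k) :=
    (Nat.prime_iff_prime_int.mp hℓ).irreducible.coprime_iff_not_dvd.mpr hkP
  obtain ⟨u, w, huw⟩ := hcop
  have h1 : (1 : A) ∈ IsLocalRing.maximalIdeal A := by
    have : ((u * (ℓ : ℤ) + w * f.coeff k : ℤ) : A) = 1 := by rw [huw]; simp
    rw [← this]
    push_cast
    exact Ideal.add_mem _ (Ideal.mul_mem_left _ _ hℓm) (Ideal.mul_mem_left _ _ hak)
  exact (Ideal.ne_top_iff_one _).mp (IsLocalRing.maximalIdeal.isMaximal A).ne_top h1

end General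

section Qbar

local instance isAlgebraicQbar_fr : Algebra.IsAlgebraic ℚ (AlgebraicClosure ℚ) :=
  AlgebraicClosure.isAlgebraic ℚ
local instance isAlgClosureQbar_fr : IsAlgClosure ℚ (AlgebraicClosure ℚ) :=
  ⟨inferInstance, inferInstance⟩
local instance normalQbar_fr : Normal ℚ (AlgebraicClosure ℚ) :=
  IsAlgClosure.normal ℚ (AlgebraicClosure ℚ)
local instance isGaloisQbar_fr : IsGalois ℚ (AlgebraicClosure ℚ) := inferInstance

abbrev Qb := AlgebraicClosure ℚ
abbrev GQ := Qb ≃ₐ[ℚ] Qb
abbrev Zb := integralClosure ℤ Qb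

local instance topZb_fr : TopologicalSpace Zb := ⊥
local instance discZb_fr : DiscreteTopology Zb := ⟨rfl⟩

theorem continuousSMul_Zb : ContinuousSMul GQ Zb := by
  rw [continuousSMul_iff_stabilizer_isOpen]
  intro b
  have h := stabilizer_isOpen_of_isIntegral (K := ℚ) (L := Qb) (b : Qb)
  convert h using 2
  ext g
  simp only [MulAction.mem_stabilizer_iff]
  constructor
  · intro hg
    have := congrArg (Subtype.val) hg
    simpa using this
  · intro hg
    apply Subtype.ext
    simpa using hg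

local instance contZb_fr : ContinuousSMul GQ Zb := continuousSMul_Zb

theorem isInvariant_Zb : Algebra.IsInvariant ℤ Zb GQ := by
  constructor
  intro b hb
  have h1 : (b : Qb) ∈ Set.range (algebraMap ℚ Qb) := by
    rw [InfiniteGalois.mem_range_algebraMap_iff_fixed]
    intro f
    have := congrArg Subtype.val (hb f)
    simpa using this
  obtain ⟨q, hq⟩ := h1
  have h2 : IsIntegral ℤ q := by
    have h3 : IsIntegral ℤ (algebraMap ℚ Qb q) := by rw [hq]; exact b.2
    exact (isIntegral_algebraMap_iff (algebraMap ℚ Qb).injective).mp h3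
  obtain ⟨n, hn⟩ := IsIntegrallyClosed.isIntegral_iff.mp h2
  refine ⟨n, Subtype.ext ?_⟩
  rw [← hq, ← hn]
  simp

local instance invZb_fr : Algebra.IsInvariant ℤ Zb GQ := isInvariant_Zb

/-- existence of a valuation subring over a prime -/
theorem exists_valuationSubring_liesOver (ℓ : ℕ) (hℓ : ℓ.Prime) :
    ∃ A : ValuationSubring Qb, A.LiesOverPrime ℓ := by
  -- the ideal generated by ℓ in Zb is proper
  have hne : Ideal.span {(ℓ : Zb.toSubring)} ≠ ⊤ := by
    intro htop
    rw [Ideal.span_singleton_eq_top] at htop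
    obtain ⟨u, hu⟩ := htop.exists_right_inv
    -- u = 1/ℓ is integral hence an integer
    have hu' : (ℓ : Qb) * (u : Qb) = 1 := by
      have := congrArg (Subtype.val) hu
      simpa using this
    have hint : IsIntegral ℤ (u : Qb) := u.2
    have hℓ0 : (ℓ : Qb) ≠ 0 := by exact_mod_cast hℓ.ne_zero
    have hueq : (u : Qb) = algebraMap ℚ Qb ((ℓ : ℚ)⁻¹) := by
      rw [map_inv₀, map_natCast]
      field_simp
      rw [mul_comm]; exact hu'
    rw [hueq, isIntegral_algebraMap_iff (algebraMap ℚ Qb).injective] at hint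
    obtain ⟨n, hn⟩ := IsIntegrallyClosed.isIntegral_iff.mp hint
    have hℓ0' : (ℓ : ℚ) ≠ 0 := by exact_mod_cast hℓ.ne_zero
    have h1 : (n : ℚ) * ℓ = 1 := by
      have : (algebraMap ℤ ℚ n) = (n : ℚ) := rfl
      rw [← this, hn]; field_simp
    have h2 : n * (ℓ : ℤ) = 1 := by exact_mod_cast h1
    have h3 : IsUnit (ℓ : ℤ) := IsUnit.of_mul_eq_one _ (by rw [mul_comm]; exact h2)
    rw [Int.isUnit_iff] at h3
    have := hℓ.one_lt
    omega
  obtain ⟨V, _, hV⟩ := Ideal.image_subset_nonunits_valuationSubring _ hne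
  refine ⟨V, ?_⟩
  apply hV
  exact ⟨(ℓ : Zb.toSubring), Ideal.subset_span rfl, by simp⟩

theorem mem_valuationSubring_of_isIntegral (A : ValuationSubring Qb) (b : Qb) (hb : IsIntegral ℤ b) :
    b ∈ A := by
  have h1 : IsIntegral A b := hb.tower_top
  obtain ⟨y, hy⟩ := IsIntegrallyClosed.isIntegral_iff.mp h1
  rw [← hy]
  exact y.2

/-- the inclusion of the integral closure into a valuation subring -/
def toValuationSubring (A : ValuationSubring Qb) : Zb →+* A where
  toFun b := ⟨b.1, mem_valuationSubring_of_isIntegral A b.1 b.2⟩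
  map_one' := rfl
  map_mul' _ _ := rfl
  map_zero' := rfl
  map_add' _ _ := rfl

/-- the prime of the integral closure below a valuation subring -/
def primeBelow (A : ValuationSubring Qb) : Ideal Zb :=
  (IsLocalRing.maximalIdeal A).comap (toValuationSubring A)

instance (A : ValuationSubring Qb) : (primeBelow A).IsPrime := by
  unfold primeBelow
  infer_instance

theorem mem_primeBelow_iff (A : ValuationSubring Qb) (b : Zb) :
    b ∈ primeBelow A ↔ (b : Qb) ∈ A.nonunits := by
  unfold primeBelow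
  rw [Ideal.mem_comap, ← ValuationSubring.coe_mem_nonunits_iff]
  rfl

theorem primeBelow_liesOver (A : ValuationSubring Qb) (ℓ : ℕ) (hℓ : ℓ.Prime) (hA : A.LiesOverPrime ℓ) :
    (primeBelow A).LiesOver (Ideal.span {(ℓ : ℤ)}) := by
  constructor
  have hmax : (Ideal.span {(ℓ : ℤ)}).IsMaximal :=
    PrincipalIdealRing.isMaximal_of_irreducible (Nat.prime_iff_prime_int.mp hℓ).irreducible
  have hle : Ideal.span {(ℓ : ℤ)} ≤ (primeBelow A).under ℤ := by
    rw [Ideal.span_le]
    intro x hx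
    rw [Set.mem_singleton_iff] at hx
    subst hx
    simp only [SetLike.mem_coe, Ideal.mem_comap]
    rw [mem_primeBelow_iff]
    have h2 : ((algebraMap ℤ Zb (ℓ : ℤ) : Zb) : Qb) = (ℓ : Qb) := by simp
    rw [h2]
    exact hA
  have hne : (primeBelow A).under ℤ ≠ ⊤ := by
    intro h
    have h1 : (1 : ℤ) ∈ (primeBelow A).under ℤ := by rw [h]; trivial
    simp only [Ideal.mem_comap, map_one] at h1
    exact (Ideal.ne_top_iff_one _).mp (Ideal.IsPrime.ne_top inferInstance) h1
  exact hmax.eq_of_le hne hle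

theorem frobenius_surjective_of_isIntegral (R : Type*) [CommRing R] [IsDomain R]
    [Algebra.IsIntegral ℤ R] (ℓ : ℕ) [Fact ℓ.Prime] [CharP R ℓ] :
    Function.Surjective (frobenius R ℓ) := by
  letI := ZMod.algebra R ℓ
  have hint : Algebra.IsIntegral (ZMod ℓ) R :=
    ⟨fun x => (Algebra.IsIntegral.isIntegral (R := ℤ) x).tower_top⟩
  letI : Field R := (isField_of_isIntegral_of_isField' (R := ZMod ℓ) (Field.toIsField _)).toField
  have halg : Algebra.IsAlgebraic (ZMod ℓ) R := inferInstance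
  have : PerfectField R := Algebra.IsAlgebraic.perfectField (ZMod ℓ) (L := R)
  have : PerfectRing R ℓ := PerfectField.toPerfectRing ℓ
  exact (bijective_frobenius R ℓ).surjective

theorem charP_quot_primeBelow (A : ValuationSubring Qb) (ℓ : ℕ) (hℓ : ℓ.Prime)
    (hA : A.LiesOverPrime ℓ) : CharP (Zb ⧸ primeBelow A) ℓ := by
  rw [CharP.charP_iff_prime_eq_zero hℓ]
  have : ((ℓ : Zb) : Zb ⧸ primeBelow A) = 0 := by
    rw [Ideal.Quotient.eq_zero_iff_mem, mem_primeBelow_iff]
    have h2 : ((ℓ : Zb) : Qb) = (ℓ : Qb) := by simp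
    rw [h2]
    exact hA
  simpa using this

theorem isIntegral_quot_primeBelow (A : ValuationSubring Qb) :
    @Algebra.IsIntegral ℤ (Zb ⧸ primeBelow A) _ _ (Ring.toIntAlgebra _) := by
  letI : Algebra ℤ (Zb ⧸ primeBelow A) := Ring.toIntAlgebra _
  refine ⟨fun x => ?_⟩
  obtain ⟨b, rfl⟩ := Ideal.Quotient.mk_surjective x
  obtain ⟨p, hp, hpx⟩ := b.2
  refine ⟨p, hp, ?_⟩
  have h1 : Polynomial.eval₂ (Int.castRingHom Zb) b p = 0 := by
    apply Subtype.ext
    have h2 := Polynomial.hom_eval₂ p (Int.castRingHom Zb) (Zb.val.toRingHom) b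
    have h3 : (Zb.val.toRingHom).comp (Int.castRingHom Zb) = algebraMap ℤ Qb := RingHom.ext_int _ _
    rw [h3] at h2
    change Zb.val.toRingHom _ = 0
    rw [h2]
    exact hpx
  have h4 := Polynomial.hom_eval₂ p (Int.castRingHom Zb) (Ideal.Quotient.mk (primeBelow A)) b
  have h5 : (Ideal.Quotient.mk (primeBelow A)).comp (Int.castRingHom Zb) =
      algebraMap ℤ (Zb ⧸ primeBelow A) := RingHom.ext_int _ _
  rw [h5, h1, map_zero] at h4
  exact h4.symm

/-- The Frobenius automorphism of the residue ring. -/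
def frobAlgEquiv (A : ValuationSubring Qb) (ℓ : ℕ) (hℓ : ℓ.Prime) (hA : A.LiesOverPrime ℓ) :
    letI := primeBelow_liesOver A ℓ hℓ hA
    (Zb ⧸ primeBelow A) ≃ₐ[ℤ ⧸ Ideal.span {(ℓ : ℤ)}] (Zb ⧸ primeBelow A) :=
  letI := primeBelow_liesOver A ℓ hℓ hA
  haveI := charP_quot_primeBelow A ℓ hℓ hA
  haveI : Fact ℓ.Prime := ⟨hℓ⟩
  AlgEquiv.ofBijective
    { frobenius (Zb ⧸ primeBelow A) ℓ with
      commutes' := fun r => by
        obtain ⟨n, rfl⟩ := Ideal.Quotient.mk_surjective r
        simp only [RingHom.toMonoidHom_eq_coe, OneHom.toFun_eq_coe, MonoidHom.toOneHom_coe,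
          MonoidHom.coe_coe]
        have : algebraMap (ℤ ⧸ Ideal.span {(ℓ : ℤ)}) (Zb ⧸ primeBelow A) (Ideal.Quotient.mk _ n) =
            ((n : ℤ) : Zb ⧸ primeBelow A) := by
          have h1 : (Ideal.Quotient.mk (Ideal.span {(ℓ : ℤ)}) n) = ((n : ℤ) : ℤ ⧸ Ideal.span {(ℓ : ℤ)}) := by
            simp
          rw [h1, map_intCast]
        rw [this, map_intCast] }
    ⟨frobenius_inj (Zb ⧸ primeBelow A) ℓ,
      haveI := isIntegral_quot_primeBelow A
      frobenius_surjective_of_isIntegral (Zb ⧸ primeBelow A) ℓ⟩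

theorem frobAlgEquiv_apply (A : ValuationSubring Qb) (ℓ : ℕ) (hℓ : ℓ.Prime) (hA : A.LiesOverPrime ℓ)
    (x : Zb ⧸ primeBelow A) : frobAlgEquiv A ℓ hℓ hA x = x ^ ℓ := rfl

/-- elements of the stabilizer of the prime below `A` preserve `A`. -/
theorem smul_mem_of_mem_stabilizer (A : ValuationSubring Qb) (ℓ : ℕ) (hℓ : ℓ.Prime)
    (hA : A.LiesOverPrime ℓ) (τ : GQ) (hτ : τ ∈ MulAction.stabilizer GQ (primeBelow A))
    (x : Qb) (hx : x ∈ A) : τ x ∈ A := by
  obtain ⟨y, b, hy, hb, hyA, hyn, hxy⟩ := exists_integral_mul_eq A ℓ hℓ hA x hx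
    ((IsFractionRing.isAlgebraic_iff ℤ ℚ Qb).mpr (Algebra.IsAlgebraic.isAlgebraic x))
  -- τ y is integral and not in the nonunits
  have hτy : IsIntegral ℤ (τ y) := hy.map (τ.toAlgHom.restrictScalars ℤ)
  have hτb : IsIntegral ℤ (τ b) := hb.map (τ.toAlgHom.restrictScalars ℤ)
  have hτyn : τ y ∉ A.nonunits := by
    intro hcon
    have h1 : (⟨τ y, hτy⟩ : Zb) ∈ primeBelow A := (mem_primeBelow_iff A _).mpr hcon
    have h2 : (⟨τ y, hτy⟩ : Zb) = τ • (⟨y, hy⟩ : Zb) := rfl
    rw [h2, ← MulAction.mem_stabilizer_iff.mp hτ] at h1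
    rw [Ideal.smul_mem_pointwise_smul_iff] at h1
    exact hyn ((mem_primeBelow_iff A _).mp h1)
  have hτyA : τ y ∈ A := mem_valuationSubring_of_isIntegral A _ hτy
  have hτbA : τ b ∈ A := mem_valuationSubring_of_isIntegral A _ hτb
  have hτy0 : τ y ≠ 0 := by
    intro h0
    have : y = 0 := by simpa using h0
    rw [this] at hyn
    exact hyn (by rw [A.mem_nonunits_iff, map_zero]; exact zero_lt_one)
  -- τ y is a unit of A
  have hunit : (τ y)⁻¹ ∈ A := by
    by_contra hinv
    have h3 := (A.mem_or_inv_mem (τ y)⁻¹).resolve_left hinv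
    rw [A.mem_nonunits_iff] at hτyn
    rw [← A.valuation_le_one_iff] at hτyA hinv
    apply hinv
    rw [map_inv₀]
    have h4 : A.valuation (τ y) = 1 := le_antisymm hτyA (not_lt.mp hτyn)
    rw [h4, inv_one]
  have : τ x = τ b * (τ y)⁻¹ := by
    rw [← hxy, map_mul]
    field_simp
  rw [this]
  exact A.mul_mem _ _ hτbA hunit

theorem exists_isFrobeniusAt (ℓ : ℕ) (hℓ : ℓ.Prime) :
    ∃ (A : ValuationSubring Qb) (σ : GQ), A.LiesOverPrime ℓ ∧ A.IsFrobeniusAt σ ℓ := by
  obtain ⟨A, hA⟩ := exists_valuationSubring_liesOver ℓ hℓ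
  haveI := primeBelow_liesOver A ℓ hℓ hA
  obtain ⟨σ, hσ⟩ := Ideal.Quotient.stabilizerHom_surjective_of_profinite (G := GQ)
    (Ideal.span {(ℓ : ℤ)}) (primeBelow A) (frobAlgEquiv A ℓ hℓ hA)
  refine ⟨A, σ.1, hA, ?_⟩
  have hσmem : σ.1 ∈ A.decompositionSubgroup ℚ := by
    rw [MulAction.mem_stabilizer_iff]
    apply le_antisymm
    · intro x hx
      rw [ValuationSubring.mem_pointwise_smul_iff_inv_smul_mem] at hx
      have := smul_mem_of_mem_stabilizer A ℓ hℓ hA σ.1 σ.2 _ hx
      simpa using this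
    · intro x hx
      rw [ValuationSubring.mem_pointwise_smul_iff_inv_smul_mem]
      exact smul_mem_of_mem_stabilizer A ℓ hℓ hA (σ.1)⁻¹ (inv_mem σ.2) x hx
  refine ⟨hσmem, ?_⟩
  -- first for integral elements
  have hint : ∀ b : Zb, (⟨σ.1, hσmem⟩ : A.decompositionSubgroup ℚ) •
      IsLocalRing.residue A (toValuationSubring A b) =
      (IsLocalRing.residue A (toValuationSubring A b)) ^ ℓ := by
    intro b
    have h1 := Ideal.Quotient.stabilizerHom_apply (primeBelow A) (Ideal.span {(ℓ : ℤ)}) GQ σ b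
    rw [hσ, frobAlgEquiv_apply, ← map_pow, Ideal.Quotient.eq] at h1
    -- b^ℓ - σ b ∈ Q
    rw [← IsLocalRing.ResidueField.residue_smul, ← map_pow, ← sub_eq_zero, ← map_sub,
      IsLocalRing.residue_eq_zero_iff]
    have h2 : toValuationSubring A (b ^ ℓ - σ • b) ∈ IsLocalRing.maximalIdeal A := h1
    have h3 : (⟨σ.1, hσmem⟩ : A.decompositionSubgroup ℚ) • toValuationSubring A b - toValuationSubring A b ^ ℓ
        = - toValuationSubring A (b ^ ℓ - σ • b) := by
      rw [map_sub, map_pow, neg_sub]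
      rfl
    rw [h3]
    exact neg_mem h2
  intro xbar
  obtain ⟨a, rfl⟩ := IsLocalRing.residue_surjective xbar
  obtain ⟨y, b, hy, hb, hyA, hyn, hxy⟩ := exists_integral_mul_eq A ℓ hℓ hA a.1 a.2
    ((IsFractionRing.isAlgebraic_iff ℤ ℚ Qb).mpr (Algebra.IsAlgebraic.isAlgebraic a.1))
  have hmul : a * toValuationSubring A ⟨y, hy⟩ = toValuationSubring A ⟨b, hb⟩ := Subtype.ext hxy
  have hyres : IsLocalRing.residue A (toValuationSubring A ⟨y, hy⟩) ≠ 0 := by
    rw [Ne, IsLocalRing.residue_eq_zero_iff, ← ValuationSubring.coe_mem_nonunits_iff]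
    exact hyn
  have h1 := congrArg (fun t => (⟨σ.1, hσmem⟩ : A.decompositionSubgroup ℚ) • IsLocalRing.residue A t) hmul
  simp only [map_mul, smul_mul', hint] at h1
  have h2 := congrArg (fun t => (IsLocalRing.residue A t) ^ ℓ) hmul
  simp only [map_mul, mul_pow] at h2
  rw [← h2] at h1
  exact mul_right_cancel₀ (pow_ne_zero ℓ hyres) h1

end Qbar

end Fermat.Agent.S54
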