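import Mathlib
import Fermat.Prelude.Def_EllipticCurve_FrobeniusTrace
import Fermat.Prelude.Def_FLTPrelim_Ramification

set_option autoImplicit false
set_option linter.style.haveILetI false

namespace Fermat.Agent.S54

open Polynomial
open scoped Pointwise

section KeyLemma

variable {K : Type*} [Field K]

theorem exists_integral_denominator_aux (A : ValuationSubring K) :
    ∀ (n : ℕ) (p : Polynomial (integralClosure ℤ K)) (x : K), p.natDegree ≤ n → x ∈ A →
      Polynomial.aeval x p = 0 → (∃ i, ((p.coeff i : integralClosure ℤ K) : K) ∉ A.nonunits) →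
      ∃ y : K, IsIntegral ℤ y ∧ y ∉ A.nonunits ∧ IsIntegral ℤ (x * y) := by
  intro n
  induction n with
  | zero =>
    intro p x hp hx hpx ⟨i, hi⟩
    by_cases hb : ((p.leadingCoeff : integralClosure ℤ K) : K) ∈ A.nonunits
    · exfalso
      apply hi
      have hp0 : p.natDegree = 0 := Nat.le_zero.mp hp
      rcases Nat.eq_zero_or_pos i with h0 | hpos
      · subst h0
        have : p.coeff 0 = p.leadingCoeff := by
          rw [Polynomial.leadingCoeff, hp0]
        rw [this]; exact hb
      · have : p.coeff i = 0 := Polynomial.coeff_eq_zero_of_natDegree_lt (by omega)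
        rw [this]
        exact A.nonunits.zero_mem
    · refine ⟨p.leadingCoeff, p.leadingCoeff.2, hb, ?_⟩
      have h1 : IsIntegral (integralClosure ℤ K) (p.leadingCoeff • x) :=
        isIntegral_leadingCoeff_smul p x hpx
      have h2 : IsIntegral ℤ (p.leadingCoeff • x) := isIntegral_trans _ h1
      rwa [mul_comm]
  | succ n ih =>
    intro p x hp hx hpx ⟨i, hi⟩
    by_cases hpn : p.natDegree ≤ n
    · exact ih p x hpn hx hpx ⟨i, hi⟩
    have hpn' : p.natDegree = n + 1 := by omega
    have h1 : IsIntegral (integralClosure ℤ K) (p.leadingCoeff • x) :=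
      isIntegral_leadingCoeff_smul p x hpx
    have h2 : IsIntegral ℤ (p.leadingCoeff • x) := isIntegral_trans _ h1
    by_cases hb : ((p.leadingCoeff : integralClosure ℤ K) : K) ∈ A.nonunits
    · -- reduce the degree
      let u : integralClosure ℤ K := ⟨p.leadingCoeff • x, h2⟩
      have hu : (u : K) ∈ A.nonunits := by
        show ((p.leadingCoeff : integralClosure ℤ K) : K) * x ∈ A.nonunits
        have hx1 : A.valuation x ≤ 1 := (A.valuation_le_one_iff x).mpr hx
        rw [ValuationSubring.mem_nonunits_iff] at hb ⊢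
        rw [map_mul]
        calc A.valuation _ * A.valuation x ≤ A.valuation _ * 1 := by gcongr
          _ = A.valuation _ := mul_one _
          _ < 1 := hb
      let p' : Polynomial (integralClosure ℤ K) := p.eraseLead + Polynomial.monomial n u
      have hp'deg : p'.natDegree ≤ n := by
        refine (Polynomial.natDegree_add_le _ _).trans (max_le ?_ (Polynomial.natDegree_monomial_le _))
        have := Polynomial.eraseLead_natDegree_le p
        omega
      have hp'x : Polynomial.aeval x p' = 0 := by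
        have hsplit := Polynomial.eraseLead_add_monomial_natDegree_leadingCoeff p
        have e1 : Polynomial.aeval x p = Polynomial.aeval x p.eraseLead +
            ((p.leadingCoeff : integralClosure ℤ K) : K) * x ^ (n + 1) := by
          conv_lhs => rw [← hsplit, map_add, Polynomial.aeval_monomial, hpn']
          rfl
        have e2 : Polynomial.aeval x p' = Polynomial.aeval x p.eraseLead +
            (u : K) * x ^ n := by
          simp only [p', map_add, Polynomial.aeval_monomial]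
          rfl
        rw [e2, ← hpx, e1]
        show _ + ((p.leadingCoeff : integralClosure ℤ K) : K) * x * x ^ n = _
        rw [pow_succ]; ring
      have hp'i : ∃ j, ((p'.coeff j : integralClosure ℤ K) : K) ∉ A.nonunits := by
        refine ⟨i, ?_⟩
        have hin : i ≠ p.natDegree := by
          rintro rfl
          exact hi hb
        have hc : p'.coeff i = p.coeff i + (if n = i then u else 0) := by
          simp only [p', Polynomial.coeff_add, Polynomial.eraseLead_coeff, if_neg hin,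
            Polynomial.coeff_monomial]
        rw [hc]
        split_ifs with hni
        · intro hmem
          apply hi
          have : ((p.coeff i : integralClosure ℤ K) : K) =
              ((p.coeff i + u : integralClosure ℤ K) : K) - (u : K) := by
            push_cast; ring
          rw [this]
          exact A.nonunits.sub_mem hmem hu
        · simpa using hi
      exact ih p' x hp'deg hx hp'x hp'i
    · refine ⟨p.leadingCoeff, p.leadingCoeff.2, hb, ?_⟩
      rwa [mul_comm]

theorem exists_coeff_not_mem_nonunits (A : ValuationSubring K) {g : Polynomial ℤ}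
    (hg : g.IsPrimitive) : ∃ i, ((g.coeff i : ℤ) : K) ∉ A.nonunits := by
  by_contra h
  simp only [not_exists, not_not] at h
  let J : Ideal ℤ := Ideal.comap (algebraMap ℤ A) (IsLocalRing.maximalIdeal A)
  have hJmem : ∀ n : ℤ, n ∈ J ↔ (n : K) ∈ A.nonunits := by
    intro n
    rw [Ideal.mem_comap, ← ValuationSubring.coe_mem_nonunits_iff]
    simp
  have hJtop : J ≠ ⊤ := Ideal.comap_ne_top _ (IsLocalRing.maximalIdeal.isMaximal A).ne_top
  obtain ⟨d, hd⟩ := (IsPrincipalIdealRing.principal J).principal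
  have hJd : J = Ideal.span {d} := hd
  have hdvd : Polynomial.C d ∣ g := by
    rw [Polynomial.C_dvd_iff_dvd_coeff]
    intro i
    have : g.coeff i ∈ J := (hJmem _).mpr (h i)
    rw [hJd, Ideal.mem_span_singleton] at this
    exact this
  have hdu : IsUnit d := hg d hdvd
  apply hJtop
  rw [hJd]
  exact Ideal.span_singleton_eq_top.mpr hdu

theorem exists_integral_denominator [CharZero K] (A : ValuationSubring K) {x : K}
    (hx : x ∈ A) (hxalg : IsAlgebraic ℤ x) :
    ∃ y : K, IsIntegral ℤ y ∧ y ∉ A.nonunits ∧ IsIntegral ℤ (x * y) := by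
  obtain ⟨f, hf0, hfx⟩ := hxalg
  have hg : f.primPart.IsPrimitive := f.isPrimitive_primPart
  have hgx : Polynomial.aeval x f.primPart = 0 := Polynomial.aeval_primPart_eq_zero hf0 hfx
  obtain ⟨i, hi⟩ := exists_coeff_not_mem_nonunits A hg
  refine exists_integral_denominator_aux A _
    (f.primPart.map (algebraMap ℤ (integralClosure ℤ K))) x le_rfl hx ?_ ⟨i, ?_⟩
  · rw [Polynomial.aeval_map_algebraMap]; exact hgx
  · rw [Polynomial.coeff_map]
    simpa using hi

end KeyLemma

section Galois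

variable {K : Type*} [Field K] [Algebra ℚ K]

/-- The Galois action on the ring of algebraic integers. -/
@[reducible] noncomputable def intClosureAction :
    MulSemiringAction (K ≃ₐ[ℚ] K) (integralClosure ℤ K) where
  smul σ b := ⟨σ b.1, map_isIntegral_int σ b.2⟩
  one_smul _ := rfl
  mul_smul _ _ _ := rfl
  smul_zero σ := Subtype.ext (map_zero σ)
  smul_add σ _ _ := Subtype.ext (map_add σ _ _)
  smul_one σ := Subtype.ext (map_one σ)
  smul_mul σ _ _ := Subtype.ext (map_mul σ _ _)

theorem intClosureAction_coe (σ : K ≃ₐ[ℚ] K) (b : integralClosure ℤ K) :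
    letI := intClosureAction (K := K)
    ((σ • b : integralClosure ℤ K) : K) = σ (b : K) := rfl

theorem intClosure_isInvariant [IsGalois ℚ K] :
    letI := intClosureAction (K := K)
    Algebra.IsInvariant ℤ (integralClosure ℤ K) (K ≃ₐ[ℚ] K) := by
  let _ := intClosureAction (K := K)
  refine ⟨fun b hb => ?_⟩
  have hmem : (b : K) ∈ IntermediateField.fixedField (⊤ : Subgroup (K ≃ₐ[ℚ] K)) := by
    rintro ⟨g, -⟩
    exact congrArg Subtype.val (hb g)
  rw [InfiniteGalois.fixedField_bot, IntermediateField.mem_bot] at hmem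
  obtain ⟨q, hq⟩ := hmem
  have hqint : IsIntegral ℤ q := by
    have := b.2
    rw [← hq] at this
    exact (isIntegral_algebraMap_iff (algebraMap ℚ K).injective).mp this
  obtain ⟨a, ha⟩ := IsIntegrallyClosed.isIntegral_iff.mp hqint
  refine ⟨a, Subtype.ext ?_⟩
  show algebraMap ℤ K a = b
  rw [← hq, ← ha, ← IsScalarTower.algebraMap_apply]

theorem exists_isFrobeniusAt_of_isAlgClosed [IsAlgClosed K] [Algebra.IsAlgebraic ℚ K]
    (A : ValuationSubring K) {ℓ : ℕ} (hℓ : ℓ.Prime) (hA : A.LiesOverPrime ℓ) :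
    ∃ σ : K ≃ₐ[ℚ] K, A.IsFrobeniusAt σ ℓ := by
  classical
  haveI : CharZero K := algebraRat.charZero K
  haveI : IsAlgClosure ℚ K := ⟨inferInstance, inferInstance⟩
  haveI : IsGalois ℚ K := inferInstance
  letI act := intClosureAction (K := K)
  haveI : SMulCommClass (K ≃ₐ[ℚ] K) ℤ (integralClosure ℤ K) :=
    ⟨fun σ n b => Subtype.ext (by
      show σ ((n • b : integralClosure ℤ K) : K) = ((n • (σ • b) : integralClosure ℤ K) : K)
      simp)⟩
  haveI := intClosure_isInvariant (K := K)
  letI : TopologicalSpace (integralClosure ℤ K) := ⊥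
  haveI : DiscreteTopology (integralClosure ℤ K) := ⟨rfl⟩
  haveI : ContinuousSMul (K ≃ₐ[ℚ] K) (integralClosure ℤ K) := by
    rw [continuousSMul_iff_stabilizer_isOpen]
    intro b
    convert stabilizer_isOpen_of_isIntegral (K := ℚ) (L := K) (b : K) using 1
    ext g
    simp only [SetLike.mem_coe, MulAction.mem_stabilizer_iff, Subtype.ext_iff, intClosureAction_coe]
    rfl
  have halg : ∀ x : K, IsAlgebraic ℤ x := fun x =>
    (IsFractionRing.isAlgebraic_iff ℤ ℚ K).mpr (Algebra.IsAlgebraic.isAlgebraic x)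
  -- B ≤ A
  have hBA : ∀ b : K, IsIntegral ℤ b → b ∈ A := fun b hb => by
    have h1 : IsIntegral A b := hb.tower_top
    obtain ⟨y, hy⟩ := IsIntegrallyClosed.isIntegral_iff.mp h1
    rw [← hy]; exact y.2
  let ι : integralClosure ℤ K →+* A :=
    { toFun := fun b => ⟨b, hBA b b.2⟩
      map_one' := rfl
      map_mul' := fun _ _ => rfl
      map_zero' := rfl
      map_add' := fun _ _ => rfl }
  let Q : Ideal (integralClosure ℤ K) := (IsLocalRing.maximalIdeal A).comap ι
  have hQmem : ∀ b : integralClosure ℤ K, b ∈ Q ↔ (b : K) ∈ A.nonunits := fun b => by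
    rw [Ideal.mem_comap, ← ValuationSubring.coe_mem_nonunits_iff]
    exact Iff.rfl
  haveI hQprime : Q.IsPrime := Ideal.comap_isPrime ι _
  let P : Ideal ℤ := Ideal.span {(ℓ : ℤ)}
  haveI hPmax : P.IsMaximal :=
    PrincipalIdealRing.isMaximal_of_irreducible (Nat.prime_iff_prime_int.mp hℓ).irreducible
  haveI hQP : Q.LiesOver P := ⟨by
    refine hPmax.eq_of_le (Ideal.comap_ne_top _ hQprime.ne_top) ?_
    rw [Ideal.span_le, Set.singleton_subset_iff, SetLike.mem_coe, Ideal.under_def,
      Ideal.mem_comap, hQmem]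
    have hA' : (ℓ : K) ∈ A.nonunits := hA
    simpa using hA'⟩
  haveI : CharP (integralClosure ℤ K ⧸ Q) ℓ := by
    refine ⟨fun n => ?_⟩
    rw [← map_natCast (Ideal.Quotient.mk Q), Ideal.Quotient.eq_zero_iff_mem]
    have h1 : ((n : ℕ) : integralClosure ℤ K) = algebraMap ℤ (integralClosure ℤ K) (n : ℤ) := by
      simp
    rw [h1, ← Ideal.mem_comap, ← Ideal.under_def, ← hQP.over, Ideal.mem_span_singleton,
      Int.natCast_dvd_natCast]
  haveI : ExpChar (integralClosure ℤ K ⧸ Q) ℓ := ExpChar.prime hℓ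
  have hfrob_inj : Function.Injective (frobenius (integralClosure ℤ K ⧸ Q) ℓ) :=
    frobenius_inj _ ℓ
  have hfrob_surj : Function.Surjective (frobenius (integralClosure ℤ K ⧸ Q) ℓ) := by
    intro y
    obtain ⟨b, rfl⟩ := Ideal.Quotient.mk_surjective y
    obtain ⟨c, hc⟩ := IsAlgClosed.exists_pow_nat_eq (b : K) hℓ.pos
    have hcint : IsIntegral ℤ c := IsIntegral.of_pow hℓ.pos (hc ▸ b.2)
    refine ⟨Ideal.Quotient.mk Q ⟨c, hcint⟩, ?_⟩
    rw [frobenius_def, ← map_pow]
    congr 1
    exact Subtype.ext hc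
  let φr : (integralClosure ℤ K ⧸ Q) ≃+* (integralClosure ℤ K ⧸ Q) :=
    RingEquiv.ofBijective (frobenius (integralClosure ℤ K ⧸ Q) ℓ) ⟨hfrob_inj, hfrob_surj⟩
  have hcomm : ∀ r : ℤ ⧸ P, φr (algebraMap (ℤ ⧸ P) (integralClosure ℤ K ⧸ Q) r) =
      algebraMap (ℤ ⧸ P) (integralClosure ℤ K ⧸ Q) r := by
    intro r
    have : (frobenius (integralClosure ℤ K ⧸ Q) ℓ).comp
        (algebraMap (ℤ ⧸ P) (integralClosure ℤ K ⧸ Q)) =
        algebraMap (ℤ ⧸ P) (integralClosure ℤ K ⧸ Q) :=
      Ideal.Quotient.ringHom_ext (RingHom.ext_int _ _)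
    exact RingHom.congr_fun this r
  let φ : (integralClosure ℤ K ⧸ Q) ≃ₐ[ℤ ⧸ P] (integralClosure ℤ K ⧸ Q) :=
    AlgEquiv.ofRingEquiv (f := φr) hcomm
  obtain ⟨⟨σ, hσQ⟩, hσφ⟩ :=
    Ideal.Quotient.stabilizerHom_surjective_of_profinite (G := K ≃ₐ[ℚ] K) P Q φ
  have hσQ' : σ • Q = Q := hσQ
  have hfrobB : ∀ b : integralClosure ℤ K, σ (b : K) - (b : K) ^ ℓ ∈ A.nonunits := by
    intro b
    have h1 : Ideal.Quotient.stabilizerHom Q P (K ≃ₐ[ℚ] K) ⟨σ, hσQ⟩ (Ideal.Quotient.mk Q b) =
        φ (Ideal.Quotient.mk Q b) := by rw [hσφ]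
    have h2 : φ (Ideal.Quotient.mk Q b) = Ideal.Quotient.mk Q (b ^ ℓ) := by
      simp [φ, φr, frobenius_def]
    rw [Ideal.Quotient.stabilizerHom_apply, h2, Ideal.Quotient.eq, hQmem] at h1
    simpa using h1
  -- automorphisms stabilising `Q` preserve `A`
  have hstab : ∀ τ : K ≃ₐ[ℚ] K, τ • Q = Q → ∀ x ∈ A, τ x ∈ A := by
    intro τ hτ x hx
    obtain ⟨y, hy, hyn, hxy⟩ := exists_integral_denominator A hx (halg x)
    have hτy : τ y ∉ A.nonunits := by
      intro hmem
      apply hyn
      have h3 : τ • (⟨y, hy⟩ : integralClosure ℤ K) ∈ τ • Q := by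
        rw [hτ]
        exact (hQmem _).mpr hmem
      exact (hQmem _).mp (Ideal.smul_mem_pointwise_smul_iff.mp h3)
    rw [ValuationSubring.mem_nonunits_iff_or, not_or, not_not] at hτy
    obtain ⟨hτy0, hτyinv⟩ := hτy
    have hτxy : τ (x * y) ∈ A := hBA _ (map_isIntegral_int τ hxy)
    have : τ x = τ (x * y) * (τ y)⁻¹ := by
      rw [map_mul, mul_assoc, mul_inv_cancel₀ hτy0, mul_one]
    rw [this]
    exact A.mul_mem _ _ hτxy hτyinv
  have hσA : σ ∈ A.decompositionSubgroup ℚ := by
    rw [MulAction.mem_stabilizer_iff]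
    have hσinv : σ⁻¹ • Q = Q := by rw [inv_smul_eq_iff, hσQ']
    ext x
    rw [ValuationSubring.mem_smul_pointwise_iff_exists]
    constructor
    · rintro ⟨s, hs, rfl⟩
      exact hstab σ hσQ' s hs
    · intro hx
      refine ⟨σ⁻¹ x, hstab σ⁻¹ hσinv x hx, ?_⟩
      show σ (σ⁻¹ x) = x
      exact AlgEquiv.apply_symm_apply σ x
  refine ⟨σ, hσA, fun x => ?_⟩
  obtain ⟨a, rfl⟩ := IsLocalRing.residue_surjective x
  obtain ⟨y, hy, hyn, hxy⟩ := exists_integral_denominator A a.2 (halg a)
  have key : ∀ (b : K) (hb : IsIntegral ℤ b),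
      (⟨σ, hσA⟩ : A.decompositionSubgroup ℚ) • (IsLocalRing.residue A ⟨b, hBA b hb⟩) =
        (IsLocalRing.residue A ⟨b, hBA b hb⟩) ^ ℓ := by
    intro b hb
    rw [← IsLocalRing.ResidueField.residue_smul, ← map_pow]
    apply Ideal.Quotient.eq.mpr
    rw [← ValuationSubring.coe_mem_nonunits_iff]
    exact hfrobB ⟨b, hb⟩
  have hry : IsLocalRing.residue A ⟨y, hBA y hy⟩ ≠ 0 := by
    rw [Ne, IsLocalRing.residue_eq_zero_iff, ← ValuationSubring.coe_mem_nonunits_iff]
    exact hyn
  have hay : a * ⟨y, hBA y hy⟩ = (⟨(a : K) * y, hBA _ hxy⟩ : A) := Subtype.ext rfl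
  have h1 := key ((a : K) * y) hxy
  rw [← hay, map_mul, smul_mul', key y hy, mul_pow] at h1
  exact mul_right_cancel₀ (pow_ne_zero _ hry) h1


end Galois

section AlgebraicClosureRat

theorem exists_valuationSubring_liesOverPrime {K : Type*} [Field K] [CharZero K] {ℓ : ℕ}
    (hℓ : ℓ.Prime) : ∃ A : ValuationSubring K, A.LiesOverPrime ℓ := by
  let R : Subring K := (Int.castRingHom K).range
  let l : R := ⟨(ℓ : K), ⟨(ℓ : ℤ), by simp⟩⟩
  have hI : Ideal.span {l} ≠ ⊤ := by
    intro h
    rw [Ideal.span_singleton_eq_top] at h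
    obtain ⟨⟨u, n, rfl⟩, hmul⟩ := isUnit_iff_exists_inv.mp h
    have h1 : ((ℓ : K)) * ((n : ℤ) : K) = 1 := by simpa [l] using congrArg Subtype.val hmul
    have h2 : ((ℓ : ℤ)) * n = 1 := by exact_mod_cast h1
    have h3 : IsUnit (ℓ : ℤ) := IsUnit.of_mul_eq_one _ h2
    exact (Nat.prime_iff_prime_int.mp hℓ).not_isUnit h3
  obtain ⟨B, -, hIB⟩ := Ideal.image_subset_nonunits_valuationSubring _ hI
  exact ⟨B, hIB ⟨l, Ideal.subset_span rfl, rfl⟩⟩

/-- Frobenius elements exist at every place of `AlgebraicClosure ℚ` over a rational prime. -/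
theorem exists_isFrobeniusAt_algebraicClosure (A : ValuationSubring (AlgebraicClosure ℚ))
    {ℓ : ℕ} (hℓ : ℓ.Prime) (hA : A.LiesOverPrime ℓ) :
    ∃ σ : AlgebraicClosure ℚ ≃ₐ[ℚ] AlgebraicClosure ℚ, A.IsFrobeniusAt σ ℓ := by
  have h : (DivisionRing.toRatAlgebra : Algebra ℚ (AlgebraicClosure ℚ)) =
      AlgebraicClosure.instAlgebra ℚ := Subsingleton.elim _ _
  haveI : Algebra.IsAlgebraic ℚ (AlgebraicClosure ℚ) := h ▸ AlgebraicClosure.isAlgebraic ℚ
  exact exists_isFrobeniusAt_of_isAlgClosed A hℓ hA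

theorem exists_liesOverPrime_and_isFrobeniusAt (ℓ : ℕ) (hℓ : ℓ.Prime) :
    ∃ A : ValuationSubring (AlgebraicClosure ℚ), A.LiesOverPrime ℓ ∧
      ∃ σ : AlgebraicClosure ℚ ≃ₐ[ℚ] AlgebraicClosure ℚ, A.IsFrobeniusAt σ ℓ := by
  obtain ⟨A, hA⟩ := exists_valuationSubring_liesOverPrime (K := AlgebraicClosure ℚ) hℓ
  exact ⟨A, hA, exists_isFrobeniusAt_algebraicClosure A hℓ hA⟩

end AlgebraicClosureRat

end Fermat.Agent.S54
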